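/-
Project S52 (the 3-5 switch), node [RAM-LOC], case `j = ∞` (helper4).  Prefix `s52nd_`.

THE GROUP THEORY OF THE NODE CASE.  `G` an abelian group of exponent `5` with `25` elements
(`= E[5]`), `g` an automorphism with `g P₀ = ± P₀` for ONE `P₀ ≠ 0` (the inertia element `σ` fixes,
up to sign, a nonzero point of `E[5] ∩ E⁰`).  Then

  `g ^ 4 = 1`  or  `g ^ 5 = 1`  or  `g ^ 5 = -1`   (`s52nd_main`, `s52nd_main_pow`),

hence for every function `x` on `G` with `x (-P) = x P` (the `x`-coordinate):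
`x ∘ g ^ 4 = x` or `x ∘ g ^ 5 = x` (`s52nd_coord`).  Mathlib only.
-/
import Mathlib

set_option autoImplicit false

namespace Fermat.Agent.S52

/-- the scalar identities, by enumeration over `𝔽₅`. -/
theorem s52nd_scalars : ∀ ε α d : ZMod 5, (ε = 1 ∨ ε = -1) → d ≠ 0 →
    (ε ^ 4 = 1 ∧ d ^ 4 = 1 ∧ α * (ε ^ 3 + ε ^ 2 * d + ε * d ^ 2 + d ^ 3) = 0) ∨
    (ε ^ 5 = 1 ∧ d ^ 5 = 1 ∧
      α * (ε ^ 4 + ε ^ 3 * d + ε ^ 2 * d ^ 2 + ε * d ^ 3 + d ^ 4) = 0) ∨
    (ε ^ 5 = -1 ∧ d ^ 5 = -1 ∧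
      α * (ε ^ 4 + ε ^ 3 * d + ε ^ 2 * d ^ 2 + ε * d ^ 3 + d ^ 4) = 0) := by
  decide

section

variable {G : Type*} [AddCommGroup G]

/-- **the node case, group theory** (iterate form). -/
theorem s52nd_main (h5 : ∀ P : G, (5 : ℕ) • P = 0) (hcard : Nat.card G = 25) (g : G ≃+ G)
    (P₀ : G) (hP₀ : P₀ ≠ 0) (hg : g P₀ = P₀ ∨ g P₀ = -P₀) :
    (∀ P, (⇑g)^[4] P = P) ∨ (∀ P, (⇑g)^[5] P = P) ∨ (∀ P, (⇑g)^[5] P = -P) := by
  classical
  have : Fact (Nat.Prime 5) := ⟨by norm_num⟩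
  let _ : Module (ZMod 5) G := AddCommGroup.zmodModule h5
  have : Finite G := Nat.finite_of_card_ne_zero (by rw [hcard]; norm_num)
  -- `G` has dimension `2`
  have hfr : Module.finrank (ZMod 5) G = 2 := by
    have h1 : Nat.card G = Nat.card (ZMod 5) ^ Module.finrank (ZMod 5) G :=
      Module.natCard_eq_pow_finrank (K := ZMod 5) (V := G)
    rw [hcard, Nat.card_zmod] at h1
    have h2 : (5 : ℕ) ^ 2 = 5 ^ Module.finrank (ZMod 5) G := by rw [← h1]; norm_num
    exact (Nat.pow_right_injective (a := 5) (by norm_num) h2).symm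
  -- a point outside the line of `P₀`
  have hQ : ∃ Q : G, Q ∉ Submodule.span (ZMod 5) {P₀} := by
    by_contra hcon
    push Not at hcon
    have htop : Submodule.span (ZMod 5) {P₀} = ⊤ := by
      rw [eq_top_iff]; exact fun Q _ => hcon Q
    have h1 : Module.finrank (ZMod 5) (Submodule.span (ZMod 5) {P₀}) = 1 :=
      finrank_span_singleton hP₀
    rw [htop, finrank_top, hfr] at h1
    omega
  obtain ⟨Q, hQ⟩ := hQ
  -- `P₀, Q` is a basis
  have hli : LinearIndependent (ZMod 5) ![P₀, Q] := by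
    rw [LinearIndependent.pair_iff' hP₀]
    intro a h
    apply hQ
    rw [← h]
    exact Submodule.smul_mem _ _ (Submodule.mem_span_singleton_self P₀)
  have hspan : ∀ P : G, ∃ a b : ZMod 5, P = a • P₀ + b • Q := by
    have hcard2 : Fintype.card (Fin 2) = Module.finrank (ZMod 5) G := by
      rw [hfr, Fintype.card_fin]
    have htop := hli.span_eq_top_of_card_eq_finrank' hcard2
    intro P
    have hP : P ∈ Submodule.span (ZMod 5) (Set.range ![P₀, Q]) := by rw [htop]; trivial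
    have hr : Set.range ![P₀, Q] = {P₀, Q} := by
      ext z
      simp only [Set.mem_range, Set.mem_insert_iff, Set.mem_singleton_iff]
      constructor
      · rintro ⟨i, rfl⟩
        fin_cases i
        · left; rfl
        · right; rfl
      · rintro (rfl | rfl)
        · exact ⟨0, rfl⟩
        · exact ⟨1, rfl⟩
    rw [hr, Submodule.mem_span_pair] at hP
    obtain ⟨a, b, hab⟩ := hP
    exact ⟨a, b, hab.symm⟩
  -- `g` is `𝔽₅`-linear
  have hlin : ∀ (c : ZMod 5) (P : G), g (c • P) = c • g P := by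
    intro c P
    obtain ⟨k, rfl⟩ := ZMod.intCast_surjective c
    rw [Int.cast_smul_eq_zsmul, Int.cast_smul_eq_zsmul, map_zsmul]
  -- the matrix of `g`
  obtain ⟨ε, hε, hgε⟩ : ∃ ε : ZMod 5, (ε = 1 ∨ ε = -1) ∧ g P₀ = ε • P₀ := by
    rcases hg with h | h
    · exact ⟨1, Or.inl rfl, by rw [h, one_smul]⟩
    · exact ⟨-1, Or.inr rfl, by rw [h, neg_smul, one_smul]⟩
  obtain ⟨α, d, hgQ⟩ := hspan (g Q)
  have hd : d ≠ 0 := by
    intro h0
    rw [h0, zero_smul, add_zero] at hgQ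
    -- `g Q = α • P₀ = g ((α * ε⁻¹) • P₀)`
    have hε0 : ε ≠ 0 := by
      rcases hε with rfl | rfl
      · exact one_ne_zero
      · exact neg_ne_zero.mpr one_ne_zero
    have h1 : g Q = g ((α * ε⁻¹) • P₀) := by
      rw [hlin, hgε, smul_smul, mul_assoc, inv_mul_cancel₀ hε0, mul_one, hgQ]
    have h2 := g.injective h1
    apply hQ
    rw [h2]
    exact Submodule.smul_mem _ _ (Submodule.mem_span_singleton_self P₀)
  -- iterates on the basis
  have hP₀k : ∀ k : ℕ, (⇑g)^[k] P₀ = (ε ^ k) • P₀ := by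
    intro k
    induction k with
    | zero => simp
    | succ k ih =>
      rw [Function.iterate_succ_apply', ih, hlin, hgε, smul_smul, pow_succ]
  have hQ1 : (⇑g)^[1] Q = α • P₀ + d • Q := by simpa using hgQ
  have hstep : ∀ (k : ℕ) (s : ZMod 5), (⇑g)^[k] Q = (α * s) • P₀ + (d ^ k) • Q →
      (⇑g)^[k + 1] Q = (α * (ε * s + d ^ k)) • P₀ + (d ^ (k + 1)) • Q := by
    intro k s hk
    rw [Function.iterate_succ_apply', hk, map_add, hlin, hlin, hgε, hgQ, smul_add, smul_smul,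
      smul_smul, smul_smul, pow_succ]
    module
  have h0 : (⇑g)^[0] Q = (α * 0) • P₀ + (d ^ 0) • Q := by simp
  have h1 := hstep 0 0 h0
  have h2 := hstep 1 _ h1
  have h3 := hstep 2 _ h2
  have h4 := hstep 3 _ h3
  have h5' := hstep 4 _ h4
  -- iterates are additive and linear
  have hiter : ∀ (k : ℕ) (a b : ZMod 5), (⇑g)^[k] (a • P₀ + b • Q) =
      a • (⇑g)^[k] P₀ + b • (⇑g)^[k] Q := by
    intro k
    induction k with
    | zero => intro a b; simp
    | succ k ih =>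
      intro a b
      rw [Function.iterate_succ_apply', ih, map_add, hlin, hlin, Function.iterate_succ_apply',
        Function.iterate_succ_apply']
  rcases s52nd_scalars ε α d hε hd with ⟨e1, e2, e3⟩ | ⟨e1, e2, e3⟩ | ⟨e1, e2, e3⟩
  · left
    intro P
    obtain ⟨a, b, rfl⟩ := hspan P
    have hc : α * (ε * (ε * (ε * (ε * 0 + d ^ 0) + d ^ 1) + d ^ 2) + d ^ 3) = 0 := by
      have : α * (ε * (ε * (ε * (ε * 0 + d ^ 0) + d ^ 1) + d ^ 2) + d ^ 3) =
          α * (ε ^ 3 + ε ^ 2 * d + ε * d ^ 2 + d ^ 3) := by ring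
      rw [this, e3]
    rw [hiter, hP₀k, h4, e1, e2, hc, zero_smul, zero_add, one_smul, one_smul]
  · right; left
    intro P
    obtain ⟨a, b, rfl⟩ := hspan P
    have hc : α * (ε * (ε * (ε * (ε * (ε * 0 + d ^ 0) + d ^ 1) + d ^ 2) + d ^ 3) + d ^ 4) = 0 := by
      have : α * (ε * (ε * (ε * (ε * (ε * 0 + d ^ 0) + d ^ 1) + d ^ 2) + d ^ 3) + d ^ 4) =
          α * (ε ^ 4 + ε ^ 3 * d + ε ^ 2 * d ^ 2 + ε * d ^ 3 + d ^ 4) := by ring
      rw [this, e3]
    rw [hiter, hP₀k, h5', e1, e2, hc, zero_smul, zero_add, one_smul, one_smul]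
  · right; right
    intro P
    obtain ⟨a, b, rfl⟩ := hspan P
    have hc : α * (ε * (ε * (ε * (ε * (ε * 0 + d ^ 0) + d ^ 1) + d ^ 2) + d ^ 3) + d ^ 4) = 0 := by
      have : α * (ε * (ε * (ε * (ε * (ε * 0 + d ^ 0) + d ^ 1) + d ^ 2) + d ^ 3) + d ^ 4) =
          α * (ε ^ 4 + ε ^ 3 * d + ε ^ 2 * d ^ 2 + ε * d ^ 3 + d ^ 4) := by ring
      rw [this, e3]
    rw [hiter, hP₀k, h5', e1, e2, hc, zero_smul, zero_add, neg_smul, neg_smul, one_smul, one_smul,
      smul_neg, smul_neg, neg_add]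

/-- the consumer form: a function `x` on `G` with `x (-P) = x P` (the `x`-coordinate) is invariant
under `g ^ 4` or under `g ^ 5`. -/
theorem s52nd_coord {X : Type*} (h5 : ∀ P : G, (5 : ℕ) • P = 0) (hcard : Nat.card G = 25)
    (g : G ≃+ G) (P₀ : G) (hP₀ : P₀ ≠ 0) (hg : g P₀ = P₀ ∨ g P₀ = -P₀)
    (x : G → X) (hx : ∀ P, x (-P) = x P) :
    (∀ P, x ((⇑g)^[4] P) = x P) ∨ (∀ P, x ((⇑g)^[5] P) = x P) := by
  rcases s52nd_main h5 hcard g P₀ hP₀ hg with h | h | h
  · exact Or.inl fun P => by rw [h]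
  · exact Or.inr fun P => by rw [h]
  · exact Or.inr fun P => by rw [h, hx]

/-- the same for a group `Γ` acting on `G` by additive automorphisms. -/
theorem s52nd_action {Γ X : Type*} [Group Γ] [DistribMulAction Γ G]
    (h5 : ∀ P : G, (5 : ℕ) • P = 0) (hcard : Nat.card G = 25) (σ : Γ)
    (P₀ : G) (hP₀ : P₀ ≠ 0) (hg : σ • P₀ = P₀ ∨ σ • P₀ = -P₀)
    (x : G → X) (hx : ∀ P, x (-P) = x P) :
    (∀ P, x ((σ ^ 4) • P) = x P) ∨ (∀ P, x ((σ ^ 5) • P) = x P) := by
  have key := s52nd_coord h5 hcard (DistribMulAction.toAddEquiv G σ) P₀ hP₀ hg x hx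
  have hit : ∀ (k : ℕ) (P : G), (⇑(DistribMulAction.toAddEquiv G σ))^[k] P = (σ ^ k) • P := by
    intro k P
    have : (⇑(DistribMulAction.toAddEquiv G σ)) = fun P : G => σ • P := rfl
    rw [this, smul_iterate]
  rcases key with h | h
  · exact Or.inl fun P => by rw [← hit]; exact h P
  · exact Or.inr fun P => by rw [← hit]; exact h P

end

end Fermat.Agent.S52
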